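/-
# RIBET row 38, WALL-p, (I6) leaf WPUR: elementwise core lemmas (helper524)

Mathlib only.  No completions, no localisations: the Gauss valuation along a branch `𝔭` of the
special fibre is handled through a "ladder" `x ^ a * (h - r) = π ^ a * c` where `x ∉ 𝔭`
satisfies `x • 𝔭 ⊆ (π)`.

* `branch_step524`   : if `(1 + π^j z) r^p ≡ h^p  (mod π^(j+1))` with `r ∉ 𝔭`, `j < p e`,
                       `p = υ π^(e (p-1))`, then `z` is a `p`-th power in `Frac (R ⧸ 𝔭)`, and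
                       `z ∈ 𝔭` unless `p ∣ j`.
* `exists_pow_sub_mem524` : root extraction in the integrally closed quotient `R ⧸ 𝔭`.
* `glue_pow524`      : gluing `p`-th roots on two branches through a point of residue
                       characteristic `p`.
-/
import Mathlib

set_option autoImplicit false

namespace Fermat.Agent.Ribet.H524

open Ideal

/-- Arithmetic: for `a < e` and `2 ≤ p`, `e (p-1) + a = a p + 1 + M`. -/
theorem exists_exponent_gap524 {p e a : ℕ} (hp : 2 ≤ p) (ha : a < e) :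
    ∃ M : ℕ, e * (p - 1) + a = a * p + 1 + M := by
  obtain ⟨P, rfl⟩ : ∃ P, p = P + 2 := ⟨p - 2, by omega⟩
  obtain ⟨d, rfl⟩ : ∃ d, e = a + 1 + d := ⟨e - a - 1, by omega⟩
  refine ⟨P + d * (P + 1), ?_⟩
  have h : P + 2 - 1 = P + 1 := by omega
  rw [h]
  ring

/-- The ladder: either `h - r` has order `a < n` along `𝔭` exactly, or order `≥ n`. -/
theorem ladder524 {R : Type*} [CommRing R] (𝔭 : Ideal R) {π x : R}
    (hx𝔭 : ∀ a ∈ 𝔭, ∃ b, x * a = π * b) (d : R) (n : ℕ) :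
    (∃ a c, a < n ∧ c ∉ 𝔭 ∧ x ^ a * d = π ^ a * c) ∨ ∃ c, x ^ n * d = π ^ n * c := by
  induction n with
  | zero => exact Or.inr ⟨d, by simp⟩
  | succ n ih =>
    rcases ih with ⟨a, c, han, hc, h⟩ | ⟨c, h⟩
    · exact Or.inl ⟨a, c, Nat.lt_succ_of_lt han, hc, h⟩
    · by_cases hc : c ∈ 𝔭
      · obtain ⟨b, hb⟩ := hx𝔭 c hc
        refine Or.inr ⟨b, ?_⟩
        calc x ^ (n + 1) * d = x * (x ^ n * d) := by ring
          _ = x * (π ^ n * c) := by rw [h]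
          _ = π ^ n * (x * c) := by ring
          _ = π ^ n * (π * b) := by rw [hb]
          _ = π ^ (n + 1) * b := by ring
      · exact Or.inl ⟨n, c, Nat.lt_succ_self n, hc, h⟩

/-- **Branch step.**  First-order analysis of a congruence `(1 + π^j z) r^p ≡ h^p` modulo
`π^(j+1)` along a branch `𝔭` (with `π` a uniformiser of `R_𝔭`), below the Hensel bound `p e`. -/
theorem branch_step524 {R : Type*} [CommRing R] [IsDomain R] (𝔭 : Ideal R) [h𝔭 : 𝔭.IsPrime]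
    {π x υ : R} {p e : ℕ} (hp : p.Prime)
    (hπ : π ∈ 𝔭) (hπ0 : π ≠ 0) (hx : x ∉ 𝔭) (hx𝔭 : ∀ a ∈ 𝔭, ∃ b, x * a = π * b)
    (hpυ : (p : R) = υ * π ^ (e * (p - 1)))
    {j : ℕ} (hj : j < p * e) {z r h t : R} (hr : r ∉ 𝔭)
    (heq : (1 + π ^ j * z) * r ^ p - h ^ p = π ^ (j + 1) * t) :
    (∃ b c : R, c ∉ 𝔭 ∧ z * c ^ p - b ^ p ∈ 𝔭) ∧ (¬ p ∣ j → z ∈ 𝔭) := by
  have hp2 : 2 ≤ p := hp.two_le
  -- a convenient way to conclude `z ∈ 𝔭`
  have hzmem : ∀ (n : ℕ) (w : R), x ^ n * (z * r ^ p - π * t) = π * w → z ∈ 𝔭 := by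
    intro n w hw
    have h1 : x ^ n * (z * r ^ p) ∈ 𝔭 := by
      have : x ^ n * (z * r ^ p) = π * (w + x ^ n * t) := by linear_combination hw
      rw [this]
      exact 𝔭.mul_mem_right _ hπ
    rcases h𝔭.mem_or_mem h1 with h2 | h2
    · exact absurd (h𝔭.mem_of_pow_mem n h2) hx
    · rcases h𝔭.mem_or_mem h2 with h3 | h3
      · exact h3
      · exact absurd (h𝔭.mem_of_pow_mem p h3) hr
  have hfin : z ∈ 𝔭 → (∃ b c : R, c ∉ 𝔭 ∧ z * c ^ p - b ^ p ∈ 𝔭) ∧ (¬ p ∣ j → z ∈ 𝔭) := by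
    intro hz
    refine ⟨⟨0, 1, ?_, ?_⟩, fun _ => hz⟩
    · exact fun h1 => h𝔭.ne_top ((Ideal.eq_top_iff_one _).mpr h1)
    · simpa [hp.ne_zero] using hz
  rcases ladder524 𝔭 hx𝔭 (h - r) e with ⟨a, c, hae, hc, hlad⟩ | ⟨c, hlad⟩
  · -- exact order `a < e`
    have hh : x ^ a * h = x ^ a * r + π ^ a * c := by linear_combination hlad
    obtain ⟨q, hq⟩ := exists_add_pow_prime_eq hp (x ^ a * r) (π ^ a * c)
    have hh' : (x ^ a * h) ^ p
        = (x ^ a * r) ^ p + (π ^ a * c) ^ p + p * (x ^ a * r) * (π ^ a * c) * q := by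
      rw [hh]; exact hq
    obtain ⟨M, hM⟩ := exists_exponent_gap524 hp2 hae
    have hpow : π ^ (e * (p - 1)) * π ^ a = π ^ (a * p) * π * π ^ M := by
      rw [← pow_add, hM]; ring
    -- the key identity
    have key : x ^ (a * p) * π ^ j * (z * r ^ p - π * t)
        = π ^ (a * p) * (c ^ p + π * (υ * π ^ M * (x ^ a * r) * c * q)) := by
      have e1 : x ^ (a * p) * π ^ j * (z * r ^ p - π * t)
          = π ^ (a * p) * c ^ p + (p : R) * (x ^ a * r) * (π ^ a * c) * q := by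
        linear_combination (x ^ (a * p)) * heq + hh'
      rw [e1, hpυ]
      linear_combination (υ * (x ^ a * r) * c * q) * hpow
    rcases lt_trichotomy (a * p) j with hlt | heq' | hgt
    · -- impossible: `c ∈ 𝔭`
      exfalso
      obtain ⟨d, rfl⟩ : ∃ d, j = a * p + 1 + d := ⟨j - a * p - 1, by omega⟩
      have h2 : π ^ (a * p) * (x ^ (a * p) * (π * π ^ d) * (z * r ^ p - π * t))
          = π ^ (a * p) * (c ^ p + π * (υ * π ^ M * (x ^ a * r) * c * q)) := by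
        rw [← key]; ring
      have h3 := mul_left_cancel₀ (pow_ne_zero _ hπ0) h2
      have h4 : c ^ p = π * (x ^ (a * p) * π ^ d * (z * r ^ p - π * t)
          - υ * π ^ M * (x ^ a * r) * c * q) := by linear_combination -h3
      have h5 : c ^ p ∈ 𝔭 := by rw [h4]; exact 𝔭.mul_mem_right _ hπ
      exact hc (h𝔭.mem_of_pow_mem p h5)
    · -- `a p = j`: `z` is a `p`-th power in the fraction field of the branch
      subst heq'
      have h2 : π ^ (a * p) * (x ^ (a * p) * (z * r ^ p - π * t))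
          = π ^ (a * p) * (c ^ p + π * (υ * π ^ M * (x ^ a * r) * c * q)) := by
        rw [← key]; ring
      have h3 := mul_left_cancel₀ (pow_ne_zero _ hπ0) h2
      refine ⟨⟨c, x ^ a * r, ?_, ?_⟩, fun hnd => absurd (Dvd.intro_left a rfl) hnd⟩
      · intro hmem
        rcases h𝔭.mem_or_mem hmem with h6 | h6
        · exact hx (h𝔭.mem_of_pow_mem a h6)
        · exact hr h6
      · have h4 : z * (x ^ a * r) ^ p - c ^ p
            = π * (υ * π ^ M * (x ^ a * r) * c * q + x ^ (a * p) * t) := by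
          linear_combination h3
        rw [h4]; exact 𝔭.mul_mem_right _ hπ
    · -- `a p > j`: `z ∈ 𝔭`
      obtain ⟨d, hd⟩ : ∃ d, a * p = j + 1 + d := ⟨a * p - j - 1, by omega⟩
      have h2 : π ^ j * (x ^ (a * p) * (z * r ^ p - π * t))
          = π ^ j * (π * (π ^ d * (c ^ p + π * (υ * π ^ M * (x ^ a * r) * c * q)))) := by
        have : π ^ (a * p) = π ^ j * (π * π ^ d) := by rw [hd]; ring
        calc π ^ j * (x ^ (a * p) * (z * r ^ p - π * t))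
            = x ^ (a * p) * π ^ j * (z * r ^ p - π * t) := by ring
          _ = π ^ (a * p) * (c ^ p + π * (υ * π ^ M * (x ^ a * r) * c * q)) := key
          _ = _ := by rw [this]; ring
      have h3 := mul_left_cancel₀ (pow_ne_zero _ hπ0) h2
      exact hfin (hzmem _ _ h3)
  · -- order `≥ e`: beyond the Hensel bound, `z ∈ 𝔭`
    have hh : x ^ e * h = x ^ e * r + π ^ e * c := by linear_combination hlad
    obtain ⟨q, hq⟩ := exists_add_pow_prime_eq hp (x ^ e * r) (π ^ e * c)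
    have hh' : (x ^ e * h) ^ p
        = (x ^ e * r) ^ p + (π ^ e * c) ^ p + p * (x ^ e * r) * (π ^ e * c) * q := by
      rw [hh]; exact hq
    have hpow : π ^ (e * (p - 1)) * π ^ e = π ^ (p * e) := by
      rw [← pow_add]
      congr 1
      obtain ⟨P, rfl⟩ : ∃ P, p = P + 1 := ⟨p - 1, by omega⟩
      simp only [Nat.add_sub_cancel]
      ring
    have key : x ^ (e * p) * π ^ j * (z * r ^ p - π * t)
        = π ^ (p * e) * (c ^ p + υ * (x ^ e * r) * c * q) := by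
      have e1 : x ^ (e * p) * π ^ j * (z * r ^ p - π * t)
          = π ^ (e * p) * c ^ p + (p : R) * (x ^ e * r) * (π ^ e * c) * q := by
        linear_combination (x ^ (e * p)) * heq + hh'
      rw [e1, hpυ]
      have : π ^ (e * p) = π ^ (p * e) := by rw [mul_comm]
      linear_combination (c ^ p) * this + (υ * (x ^ e * r) * c * q) * hpow
    obtain ⟨d, hd⟩ : ∃ d, p * e = j + 1 + d := ⟨p * e - j - 1, by omega⟩
    have h2 : π ^ j * (x ^ (e * p) * (z * r ^ p - π * t))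
        = π ^ j * (π * (π ^ d * (c ^ p + υ * (x ^ e * r) * c * q))) := by
      have : π ^ (p * e) = π ^ j * (π * π ^ d) := by rw [hd]; ring
      calc π ^ j * (x ^ (e * p) * (z * r ^ p - π * t))
          = x ^ (e * p) * π ^ j * (z * r ^ p - π * t) := by ring
        _ = π ^ (p * e) * (c ^ p + υ * (x ^ e * r) * c * q) := key
        _ = _ := by rw [this]; ring
    have h3 := mul_left_cancel₀ (pow_ne_zero _ hπ0) h2
    exact hfin (hzmem _ _ h3)

/-- **Root extraction** in the integrally closed quotient `R ⧸ 𝔭`. -/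
theorem exists_pow_sub_mem524 {R : Type*} [CommRing R] (𝔭 : Ideal R) [h𝔭 : 𝔭.IsPrime]
    [IsIntegrallyClosed (R ⧸ 𝔭)] {p : ℕ} (hp : p ≠ 0) {z b c : R} (hc : c ∉ 𝔭)
    (h : z * c ^ p - b ^ p ∈ 𝔭) : ∃ w : R, z - w ^ p ∈ 𝔭 := by
  have hc' : Ideal.Quotient.mk 𝔭 c ≠ 0 := fun h0 => hc (Ideal.Quotient.eq_zero_iff_mem.mp h0)
  have h1 : Ideal.Quotient.mk 𝔭 z * (Ideal.Quotient.mk 𝔭 c) ^ p = (Ideal.Quotient.mk 𝔭 b) ^ p := by
    have := Ideal.Quotient.eq_zero_iff_mem.mpr h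
    rw [map_sub, map_mul, map_pow, map_pow, sub_eq_zero] at this
    exact this
  have h2 : (Ideal.Quotient.mk 𝔭 c) ^ p ∣ (Ideal.Quotient.mk 𝔭 b) ^ p := ⟨_, by rw [← h1, mul_comm]⟩
  obtain ⟨w', hw'⟩ := (IsIntegrallyClosed.pow_dvd_pow_iff hp).mp h2
  obtain ⟨w, rfl⟩ := Ideal.Quotient.mk_surjective w'
  refine ⟨w, ?_⟩
  rw [← Ideal.Quotient.eq_zero_iff_mem, map_sub, map_pow, sub_eq_zero]
  have h3 : Ideal.Quotient.mk 𝔭 z * (Ideal.Quotient.mk 𝔭 c) ^ p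
      = (Ideal.Quotient.mk 𝔭 w) ^ p * (Ideal.Quotient.mk 𝔭 c) ^ p := by
    rw [h1, hw']; ring
  exact mul_right_cancel₀ (pow_ne_zero _ hc') h3

/-- **Gluing `p`-th roots at the node.** -/
theorem glue_pow524 {R : Type*} [CommRing R] [IsLocalRing R] (𝔭₁ 𝔭₂ : Ideal R) {π : R} {p : ℕ}
    (hp : p.Prime) (hpm : (p : R) ∈ IsLocalRing.maximalIdeal R)
    (hinf : 𝔭₁ ⊓ 𝔭₂ = Ideal.span {π}) (hsup : 𝔭₁ ⊔ 𝔭₂ = IsLocalRing.maximalIdeal R)
    {z w₁ w₂ : R} (h₁ : z - w₁ ^ p ∈ 𝔭₁) (h₂ : z - w₂ ^ p ∈ 𝔭₂) :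
    ∃ w z' : R, z = w ^ p + π * z' := by
  have h𝔭₁𝔪 : 𝔭₁ ≤ IsLocalRing.maximalIdeal R := hsup ▸ le_sup_left
  have h𝔭₂𝔪 : 𝔭₂ ≤ IsLocalRing.maximalIdeal R := hsup ▸ le_sup_right
  -- `w₁ - w₂ ∈ 𝔪`
  have hd : w₁ - w₂ ∈ IsLocalRing.maximalIdeal R := by
    obtain ⟨q, hq⟩ := exists_add_pow_prime_eq hp (w₁ - w₂) w₂
    have h3 : (w₁ - w₂) ^ p = (z - w₂ ^ p) - (z - w₁ ^ p) - p * ((w₁ - w₂) * w₂ * q) := by
      have : (w₁ - w₂ + w₂) ^ p = w₁ ^ p := by rw [sub_add_cancel]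
      rw [this] at hq
      linear_combination -hq
    have h4 : (w₁ - w₂) ^ p ∈ IsLocalRing.maximalIdeal R := by
      rw [h3]
      exact Ideal.sub_mem _ (Ideal.sub_mem _ (h𝔭₂𝔪 h₂) (h𝔭₁𝔪 h₁)) (Ideal.mul_mem_right _ _ hpm)
    exact (IsLocalRing.maximalIdeal.isMaximal R).isPrime.mem_of_pow_mem p h4
  rw [← hsup] at hd
  obtain ⟨a₁, ha₁, a₂, ha₂, hsum⟩ := Submodule.mem_sup.mp hd
  have hw1 : (w₁ - a₁) ^ p - w₁ ^ p ∈ 𝔭₁ := by
    obtain ⟨u, hu⟩ := sub_dvd_pow_sub_pow (w₁ - a₁) w₁ p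
    rw [hu]
    have : w₁ - a₁ - w₁ = -a₁ := by ring
    rw [this]
    exact 𝔭₁.mul_mem_right _ (𝔭₁.neg_mem ha₁)
  have hw2 : (w₁ - a₁) ^ p - w₂ ^ p ∈ 𝔭₂ := by
    obtain ⟨u, hu⟩ := sub_dvd_pow_sub_pow (w₁ - a₁) w₂ p
    rw [hu]
    have : w₁ - a₁ - w₂ = a₂ := by linear_combination -hsum
    rw [this]
    exact 𝔭₂.mul_mem_right _ ha₂
  have hmem : z - (w₁ - a₁) ^ p ∈ 𝔭₁ ⊓ 𝔭₂ := by
    constructor
    · have : z - (w₁ - a₁) ^ p = (z - w₁ ^ p) - ((w₁ - a₁) ^ p - w₁ ^ p) := by ring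
      rw [this]; exact 𝔭₁.sub_mem h₁ hw1
    · have : z - (w₁ - a₁) ^ p = (z - w₂ ^ p) - ((w₁ - a₁) ^ p - w₂ ^ p) := by ring
      rw [this]; exact 𝔭₂.sub_mem h₂ hw2
  rw [hinf] at hmem
  obtain ⟨z', hz'⟩ := Ideal.mem_span_singleton'.mp hmem
  exact ⟨w₁ - a₁, z', by linear_combination -hz'⟩

end Fermat.Agent.Ribet.H524
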