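/-
# RIBET row 38, WALL-p, (I6) leaf WPUR = `H704.I6.WildPurityStatement`  (helper524)

`wildPurity524 : Fermat.Agent.Ribet.H704.I6.WildPurityStatement`, verbatim.

Proof.
0. `IsNode` gives discrete valuation rings `R ⧸ 𝔭ᵢ`; the branch hypotheses at `k = 1` give that
   `g` is a `p`-th power modulo `𝔭ᵢ`; node purity (`A2/H609 exists_unit_mul_pow_of_node`,
   thickness-free) gives `g = ε₀ f ^ p` with `ε₀` a unit.
1. Successive approximation: for `j ≤ p e`, `ε₀ = s ^ p (1 + π ^ j z)` with `s` a unit.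
   Step `j → j + 1`: `branch_step524` on both branches (hypotheses at `k = j + 1`) shows that
   `z` is a `p`-th power modulo `𝔭₁` and modulo `𝔭₂` (and `z ∈ 𝔭₁ ⊓ 𝔭₂ = (π)` if `p ∤ j`);
   the roots glue at the node (`glue_pow524`): `z = w ^ p + π z'`; divide by
   `(1 + π ^ (j / p) w) ^ p`.
2. At `j = p e`: `π ^ (p e) = λ ^ p η ^ (-p)`.
The witness has `d₂ = 1`, `d₁ = f`.
-/
import Fermat.Agent.Ribet.H704.I6Spec
import Fermat.Agent.A2.H609.Node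
import Fermat.Agent.Ribet.H524.WildPurityCore

set_option autoImplicit false

namespace Fermat.Agent.Ribet.H524

open Ideal Fermat.Agent.Ribet.H704.I6

/-- In a domain, a nonzero nonunit `X` such that every nonzero element is associated to a power
of `X` is irreducible. -/
theorem irreducible_of_assoc_pow524 {D : Type*} [CommRing D] [IsDomain D] {X : D}
    (hX0 : X ≠ 0) (hnu : ¬ IsUnit X)
    (hass : ∀ a : D, a ≠ 0 → ∃ n : ℕ, Associated (X ^ n) a) : Irreducible X := by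
  refine ⟨hnu, ?_⟩
  intro a b hab
  have ha0 : a ≠ 0 := fun h0 => hX0 (by rw [hab, h0, zero_mul])
  have hb0 : b ≠ 0 := fun h0 => hX0 (by rw [hab, h0, mul_zero])
  obtain ⟨α, hα⟩ := hass a ha0
  obtain ⟨β, hβ⟩ := hass b hb0
  have h1 : Associated (X ^ (α + β)) X := by
    have h2 : Associated (X ^ α * X ^ β) (a * b) := hα.mul_mul hβ
    rw [← pow_add, ← hab] at h2
    exact h2
  rcases Nat.eq_zero_or_pos α with h0 | hαpos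
  · left
    rw [h0, pow_zero] at hα
    exact (associated_one_iff_isUnit.mp hα.symm)
  rcases Nat.eq_zero_or_pos β with h0 | hβpos
  · right
    rw [h0, pow_zero] at hβ
    exact (associated_one_iff_isUnit.mp hβ.symm)
  exfalso
  -- `α + β ≥ 2`: then `X` would be a unit
  obtain ⟨n, hn⟩ : ∃ n, α + β = n + 2 := ⟨α + β - 2, by omega⟩
  rw [hn] at h1
  obtain ⟨u, hu⟩ := h1
  have h2 : X * (X ^ (n + 1) * u) = X * 1 := by
    rw [mul_one]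
    calc X * (X ^ (n + 1) * u) = X ^ (n + 2) * u := by ring
      _ = X := hu
  have h3 := mul_left_cancel₀ hX0 h2
  have h4 : IsUnit (X ^ (n + 1)) := IsUnit.of_mul_eq_one _ h3
  exact hnu ((isUnit_pow_iff (Nat.succ_ne_zero n)).mp h4)

/-- A quotient by a prime in which every nonzero element is associated to a power of a nonzero
nonunit `x` is a discrete valuation ring. -/
theorem isDVR_quot_of_unif524 {R : Type*} [CommRing R] (𝔭 : Ideal R) [h𝔭 : 𝔭.IsPrime]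
    (x : R) (hx : x ∉ 𝔭) (hnu : ¬ IsUnit (Ideal.Quotient.mk 𝔭 x))
    (hunif : ∀ a : R, a ∉ 𝔭 → ∃ s : ℕ, OrdOn 𝔭 x a s) :
    IsDiscreteValuationRing (R ⧸ 𝔭) := by
  apply IsDiscreteValuationRing.ofHasUnitMulPowIrreducibleFactorization
  have hx0 : Ideal.Quotient.mk 𝔭 x ≠ 0 := fun h0 => hx (Ideal.Quotient.eq_zero_iff_mem.mp h0)
  have hass : ∀ a : R ⧸ 𝔭, a ≠ 0 → ∃ n : ℕ, Associated ((Ideal.Quotient.mk 𝔭 x) ^ n) a := by
    intro a ha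
    obtain ⟨a, rfl⟩ := Ideal.Quotient.mk_surjective a
    have ha' : a ∉ 𝔭 := fun h0 => ha (Ideal.Quotient.eq_zero_iff_mem.mpr h0)
    obtain ⟨s, hs⟩ := hunif a ha'
    exact ⟨s, hs.symm⟩
  exact ⟨Ideal.Quotient.mk 𝔭 x, irreducible_of_assoc_pow524 hx0 hnu hass,
    fun {a} ha => hass a ha⟩

section Node

variable {R : Type*} [CommRing R] [IsLocalRing R]

/-- The uniformiser `π` of a node ring (domain) is nonzero. -/
theorem isNode_pi_ne_zero524 [IsDomain R] {𝔭₁ 𝔭₂ : Ideal R} {π x y : R} (hN : IsNode 𝔭₁ 𝔭₂ π x y) :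
    π ≠ 0 := by
  rintro rfl
  have h1 : x * y ∈ 𝔭₁ ⊓ 𝔭₂ := ⟨𝔭₁.mul_mem_left _ hN.hy, 𝔭₂.mul_mem_right _ hN.hx⟩
  rw [hN.inf_eq, Ideal.mem_span_singleton'] at h1
  obtain ⟨a, ha⟩ := h1
  rw [mul_zero] at ha
  rcases mul_eq_zero.mp ha.symm with h0 | h0
  · exact hN.hx₁ (h0 ▸ 𝔭₁.zero_mem)
  · exact hN.hy₂ (h0 ▸ 𝔭₂.zero_mem)

theorem isNode_pi_mem_left524 {𝔭₁ 𝔭₂ : Ideal R} {π x y : R} (hN : IsNode 𝔭₁ 𝔭₂ π x y) :
    π ∈ 𝔭₁ :=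
  (inf_le_left : 𝔭₁ ⊓ 𝔭₂ ≤ 𝔭₁) (hN.inf_eq ▸ Ideal.mem_span_singleton_self π)

theorem isNode_pi_mem_right524 {𝔭₁ 𝔭₂ : Ideal R} {π x y : R} (hN : IsNode 𝔭₁ 𝔭₂ π x y) :
    π ∈ 𝔭₂ :=
  (inf_le_right : 𝔭₁ ⊓ 𝔭₂ ≤ 𝔭₂) (hN.inf_eq ▸ Ideal.mem_span_singleton_self π)

theorem isNode_x_mul524 {𝔭₁ 𝔭₂ : Ideal R} {π x y : R} (hN : IsNode 𝔭₁ 𝔭₂ π x y) :
    ∀ a ∈ 𝔭₁, ∃ b, x * a = π * b := by
  intro a ha
  have h1 : x * a ∈ 𝔭₁ ⊓ 𝔭₂ := ⟨𝔭₁.mul_mem_left _ ha, 𝔭₂.mul_mem_right _ hN.hx⟩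
  rw [hN.inf_eq, Ideal.mem_span_singleton'] at h1
  obtain ⟨b, hb⟩ := h1
  exact ⟨b, by rw [← hb, mul_comm]⟩

theorem isNode_y_mul524 {𝔭₁ 𝔭₂ : Ideal R} {π x y : R} (hN : IsNode 𝔭₁ 𝔭₂ π x y) :
    ∀ a ∈ 𝔭₂, ∃ b, y * a = π * b := by
  intro a ha
  have h1 : y * a ∈ 𝔭₁ ⊓ 𝔭₂ := ⟨𝔭₁.mul_mem_right _ hN.hy, 𝔭₂.mul_mem_left _ ha⟩
  rw [hN.inf_eq, Ideal.mem_span_singleton'] at h1
  obtain ⟨b, hb⟩ := h1
  exact ⟨b, by rw [← hb, mul_comm]⟩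

/-- **Successive approximation** of a unit which is a `p`-th power along both branches. -/
theorem approx524 [IsDomain R] {𝔭₁ 𝔭₂ : Ideal R} {π x y : R} (hN : IsNode 𝔭₁ 𝔭₂ π x y)
    [IsIntegrallyClosed (R ⧸ 𝔭₁)] [IsIntegrallyClosed (R ⧸ 𝔭₂)]
    {p e : ℕ} (hp : p.Prime) (he : 0 < e) {υ : R} (hpυ : (p : R) = υ * π ^ (e * (p - 1)))
    {ε₀ : R} (hε₀ : IsUnit ε₀)
    (hb₁ : ∀ k : ℕ, ∃ h r t : R, r ∉ 𝔭₁ ∧ ε₀ * r ^ p - h ^ p = π ^ k * t)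
    (hb₂ : ∀ k : ℕ, ∃ h r t : R, r ∉ 𝔭₂ ∧ ε₀ * r ^ p - h ^ p = π ^ k * t) :
    ∀ j : ℕ, j ≤ p * e → ∃ s z : R, IsUnit s ∧ ε₀ = s ^ p * (1 + π ^ j * z) := by
  have := hN.prime₁
  have := hN.prime₂
  have hπ0 := (isNode_pi_ne_zero524 hN)
  have hπ₁ := (isNode_pi_mem_left524 hN)
  have hπ₂ := (isNode_pi_mem_right524 hN)
  have h𝔭₁𝔪 : 𝔭₁ ≤ IsLocalRing.maximalIdeal R := hN.sup_eq ▸ le_sup_left
  have hπ𝔪 : π ∈ IsLocalRing.maximalIdeal R := h𝔭₁𝔪 hπ₁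
  have hp2 : 2 ≤ p := hp.two_le
  have hpm : (p : R) ∈ IsLocalRing.maximalIdeal R := by
    rw [hpυ]
    apply Ideal.mul_mem_left
    obtain ⟨n, hn⟩ : ∃ n, e * (p - 1) = n + 1 := by
      have : 0 < e * (p - 1) := Nat.mul_pos he (by omega)
      exact ⟨e * (p - 1) - 1, by omega⟩
    rw [hn, pow_succ]
    exact Ideal.mul_mem_left _ _ hπ𝔪
  intro j
  induction j with
  | zero =>
    intro _
    exact ⟨1, ε₀ - 1, isUnit_one, by ring⟩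
  | succ j ih =>
    intro hj
    have hj' : j < p * e := hj
    obtain ⟨s, z, hs, hsz⟩ := ih hj'.le
    have hs₁ : s ∉ 𝔭₁ := fun h0 => hN.prime₁.ne_top (Ideal.eq_top_of_isUnit_mem _ h0 hs)
    have hs₂ : s ∉ 𝔭₂ := fun h0 => hN.prime₂.ne_top (Ideal.eq_top_of_isUnit_mem _ h0 hs)
    obtain ⟨h₁, r₁, t₁, hr₁, e₁⟩ := hb₁ (j + 1)
    obtain ⟨h₂, r₂, t₂, hr₂, e₂⟩ := hb₂ (j + 1)
    have hsr₁ : s * r₁ ∉ 𝔭₁ := fun h0 => (hN.prime₁.mem_or_mem h0).elim hs₁ hr₁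
    have hsr₂ : s * r₂ ∉ 𝔭₂ := fun h0 => (hN.prime₂.mem_or_mem h0).elim hs₂ hr₂
    have e₁' : (1 + π ^ j * z) * (s * r₁) ^ p - h₁ ^ p = π ^ (j + 1) * t₁ := by
      rw [← e₁, hsz]; ring
    have e₂' : (1 + π ^ j * z) * (s * r₂) ^ p - h₂ ^ p = π ^ (j + 1) * t₂ := by
      rw [← e₂, hsz]; ring
    obtain ⟨⟨b₁, c₁, hc₁, hbc₁⟩, hnd₁⟩ :=
      branch_step524 𝔭₁ hp hπ₁ hπ0 hN.hx₁ (isNode_x_mul524 hN) hpυ hj' hsr₁ e₁'
    obtain ⟨⟨b₂, c₂, hc₂, hbc₂⟩, hnd₂⟩ :=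
      branch_step524 𝔭₂ hp hπ₂ hπ0 hN.hy₂ (isNode_y_mul524 hN) hpυ hj' hsr₂ e₂'
    by_cases hdiv : p ∣ j
    · -- `j = p i`
      obtain ⟨i, rfl⟩ := hdiv
      have hie : i < e := by
        by_contra hcon
        have := Nat.mul_le_mul_left p (not_lt.mp hcon)
        omega
      obtain ⟨w₁, hw₁⟩ := exists_pow_sub_mem524 𝔭₁ hp.ne_zero hc₁ hbc₁
      obtain ⟨w₂, hw₂⟩ := exists_pow_sub_mem524 𝔭₂ hp.ne_zero hc₂ hbc₂
      obtain ⟨w, z', hz'⟩ := glue_pow524 𝔭₁ 𝔭₂ hp hpm hN.inf_eq hN.sup_eq hw₁ hw₂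
      obtain ⟨q, hq⟩ := exists_add_pow_prime_eq hp (1 : R) (π ^ i * w)
      obtain ⟨M, hM⟩ := exists_exponent_gap524 hp2 hie
      have hpow : π ^ (e * (p - 1)) * π ^ i = π ^ (p * i) * π * π ^ M := by
        rw [← pow_add, hM]
        have : i * p = p * i := mul_comm _ _
        rw [this]; ring
      -- `v ^ p = 1 + π ^ j w ^ p + π ^ (j + 1) Q`
      have hv : (1 + π ^ i * w) ^ p
          = 1 + π ^ (p * i) * w ^ p + π ^ (p * i + 1) * (υ * π ^ M * w * q) := by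
        rw [hq, hpυ]
        linear_combination (υ * w * q) * hpow
      -- `1 + π ^ j z` is a unit
      have hu1 : IsUnit (1 + π ^ (p * i) * z) := by
        have : IsUnit (s ^ p * (1 + π ^ (p * i) * z)) := hsz ▸ hε₀
        exact isUnit_of_mul_isUnit_right this
      -- `v` is a unit
      have hvu : IsUnit (1 + π ^ i * w) := by
        rw [← isUnit_pow_iff hp.ne_zero, ← IsLocalRing.notMem_maximalIdeal]
        intro hmem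
        have h5 : 1 + π ^ (p * i) * z
            = (1 + π ^ i * w) ^ p + π * (π ^ (p * i) * (z' - υ * π ^ M * w * q)) := by
          rw [hv, hz']; ring
        have h6 : 1 + π ^ (p * i) * z ∈ IsLocalRing.maximalIdeal R := by
          rw [h5]
          exact Ideal.add_mem _ hmem (Ideal.mul_mem_right _ _ hπ𝔪)
        exact (IsLocalRing.notMem_maximalIdeal.mpr hu1) h6
      obtain ⟨v', hv'⟩ := hvu.exists_right_inv
      have hv'p : (1 + π ^ i * w) ^ p * v' ^ p = 1 := by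
        rw [← mul_pow, hv', one_pow]
      refine ⟨s * (1 + π ^ i * w), (z' - υ * π ^ M * w * q) * v' ^ p, hs.mul hvu, ?_⟩
      rw [mul_pow, hsz, hz']
      have h7 : 1 + π ^ (p * i) * (w ^ p + π * z')
          = (1 + π ^ i * w) ^ p + π ^ (p * i + 1) * (z' - υ * π ^ M * w * q) := by
        rw [hv]; ring
      rw [h7]
      linear_combination (-(s ^ p * π ^ (p * i + 1) * (z' - υ * π ^ M * w * q))) * hv'p
    · -- `p ∤ j`: `z ∈ (π)`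
      have hz : z ∈ 𝔭₁ ⊓ 𝔭₂ := ⟨hnd₁ hdiv, hnd₂ hdiv⟩
      rw [hN.inf_eq, Ideal.mem_span_singleton'] at hz
      obtain ⟨z', hz'⟩ := hz
      refine ⟨s, z', hs, ?_⟩
      rw [hsz, ← hz']; ring

end Node

/-- **WPUR**, verbatim. -/
theorem wildPurity524 : WildPurityStatement := by
  intro R _ _ _ _ _ 𝔭₁ 𝔭₂ π x y hN p hp lam ε η e hε hlam hη he hlamη g hg₁ hg₂ hH1 hb₁ hb₂
  have := hN.prime₁
  have := hN.prime₂
  have : IsDiscreteValuationRing (R ⧸ 𝔭₁) :=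
    isDVR_quot_of_unif524 𝔭₁ x hN.hx₁ hN.nonunit₁ hN.unif₁
  have : IsDiscreteValuationRing (R ⧸ 𝔭₂) :=
    isDVR_quot_of_unif524 𝔭₂ y hN.hy₂ hN.nonunit₂ hN.unif₂
  have hπ₁ := (isNode_pi_mem_left524 hN)
  have hπ₂ := (isNode_pi_mem_right524 hN)
  -- (H2): `g` is a `p`-th power modulo each branch
  have H2 : ∀ (𝔭 : Ideal R) [𝔭.IsPrime] [IsIntegrallyClosed (R ⧸ 𝔭)], π ∈ 𝔭 →
      (∀ k : ℕ, ∃ h r t : R, r ∉ 𝔭 ∧ g * r ^ p - h ^ p = π ^ k * t) →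
      ∃ v : R ⧸ 𝔭, Associated (v ^ p) (Ideal.Quotient.mk 𝔭 g) := by
    intro 𝔭 _ _ hπ hb
    obtain ⟨h, r, t, hr, heq⟩ := hb 1
    have hmem : g * r ^ p - h ^ p ∈ 𝔭 := by
      rw [heq, pow_one]; exact 𝔭.mul_mem_right _ hπ
    obtain ⟨w, hw⟩ := exists_pow_sub_mem524 𝔭 hp.ne_zero hr hmem
    refine ⟨Ideal.Quotient.mk 𝔭 w, ?_⟩
    have : Ideal.Quotient.mk 𝔭 g = (Ideal.Quotient.mk 𝔭 w) ^ p := by
      rw [← map_pow, ← sub_eq_zero, ← map_sub]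
      exact Ideal.Quotient.eq_zero_iff_mem.mpr hw
    rw [this]
  obtain ⟨f, ε₀, hgf⟩ := Fermat.Agent.A2.H609.exists_unit_mul_pow_of_node hp.ne_zero 𝔭₁ 𝔭₂
    hN.inf_eq hN.sup_eq hg₁ hg₂ hH1 (H2 𝔭₁ hπ₁ hb₁) (H2 𝔭₂ hπ₂ hb₂)
  have hf₁ : f ∉ 𝔭₁ := fun h0 => hg₁ (by
    rw [hgf]; exact 𝔭₁.mul_mem_left _ (𝔭₁.pow_mem_of_mem h0 p hp.pos))
  have hf₂ : f ∉ 𝔭₂ := fun h0 => hg₂ (by
    rw [hgf]; exact 𝔭₂.mul_mem_left _ (𝔭₂.pow_mem_of_mem h0 p hp.pos))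
  have hf0 : f ≠ 0 := fun h0 => hf₁ (h0 ▸ 𝔭₁.zero_mem)
  -- branch hypotheses for `ε₀`
  have hb₁' : ∀ k : ℕ, ∃ h r t : R, r ∉ 𝔭₁ ∧ (ε₀ : R) * r ^ p - h ^ p = π ^ k * t := by
    intro k
    obtain ⟨h, r, t, hr, heq⟩ := hb₁ k
    refine ⟨h, f * r, t, fun h0 => (hN.prime₁.mem_or_mem h0).elim hf₁ hr, ?_⟩
    rw [← heq, hgf]; ring
  have hb₂' : ∀ k : ℕ, ∃ h r t : R, r ∉ 𝔭₂ ∧ (ε₀ : R) * r ^ p - h ^ p = π ^ k * t := by
    intro k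
    obtain ⟨h, r, t, hr, heq⟩ := hb₂ k
    refine ⟨h, f * r, t, fun h0 => (hN.prime₂.mem_or_mem h0).elim hf₂ hr, ?_⟩
    rw [← heq, hgf]; ring
  -- `p = υ π ^ (e (p - 1))`
  obtain ⟨ε', hε'⟩ := hε.exists_right_inv
  obtain ⟨η', hη'⟩ := hη.exists_right_inv
  have hpυ : (p : R) = (η ^ (p - 1) * ε') * π ^ (e * (p - 1)) := by
    have h1 : (p : R) = lam ^ (p - 1) * ε' := by
      rw [hlam, mul_assoc, hε', mul_one]
    rw [h1, hlamη, mul_pow, ← pow_mul]; ring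
  obtain ⟨s, z, hs, hsz⟩ := approx524 hN hp he hpυ ε₀.isUnit hb₁' hb₂' (p * e) le_rfl
  have hπpe : π ^ (p * e) = lam ^ p * η' ^ p := by
    rw [hlamη, mul_pow, ← pow_mul, mul_comm e p]
    have : η ^ p * η' ^ p = 1 := by rw [← mul_pow, hη', one_pow]
    linear_combination (-(π ^ (p * e))) * this
  refine ⟨f, 1, s, η' ^ p * z, hf0, one_ne_zero, hs, ?_⟩
  rw [hgf, hsz, hπpe]; ring

end Fermat.Agent.Ribet.H524
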