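import Fermat.Agent.Ribet.Spec

/-!
# Row RIBET, piece G4: level raising adapter (helper524)

`Spec.LevelRaisingStatement` (the Prelude's Frey form `FreyPackage.LevelRaising`, consumed by
`Glue.S43_of`) from the frozen statement S41, taken as a hypothesis.

* `S41Statement` : the type of the frozen statement S41, verbatim, as a `Prop`;
* `freyCurve_isElliptic524` : the Frey curve of a Frey package is an elliptic curve;
* `levelRaising_of_S41 : S41Statement → Spec.LevelRaisingStatement`;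
* `levelRaising_of_S41_at` : the same for one Frey package, level and prime;
* `modularRepOfLevelNewAt_of_S41` : unfolded form (conclusion `ModularRepOfLevelNewAt`).
-/

set_option autoImplicit false

open WeierstrassCurve WeierstrassCurve.Affine WeierstrassCurve.Affine.Point
open scoped CongruenceSubgroup

namespace Fermat.Agent.Ribet.H524

/-- The frozen statement S41 (row 39, level raising), verbatim, as a `Prop`. -/
def S41Statement : Prop :=
  ∀ (E : WeierstrassCurve ℚ) [E.IsElliptic] {W : WeierstrassCurve ℤ}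
    (_ : W.IsIntegralModelOf E)
    {p N q' : ℕ} (_ : p.Prime) (_ : p ≠ 2) (_ : 0 < N) (_ : q'.Prime) (_ : ¬ q' ∣ N)
    (_ : q' ≠ p)
    (_ : GaloisRepIsIrreducible (K := AlgebraicClosure ℚ) ℚ E p)
    (f : CuspForm (CongruenceSubgroup.Gamma0 N) 2) (𝔪 : Ideal (integralClosure ℤ ℂ))
    (_ : f.IsNormalizedEigenform) (_ : 𝔪.IsMaximal) (_ : (p : integralClosure ℤ ℂ) ∈ 𝔪)
    (_ : ∀ ℓ : ℕ, ℓ.Prime → W.IsGoodPrimeFor ℓ → ¬ ℓ ∣ N → ℓ ≠ p →
      ∃ a : integralClosure ℤ ℂ, (a : ℂ) = ModularFormClass.qCoeff f ℓ ∧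
        a - ((W.apOfModel ℓ : ℤ) : integralClosure ℤ ℂ) ∈ 𝔪)
    (_ : ∃ a : integralClosure ℤ ℂ, (a : ℂ) = ModularFormClass.qCoeff f q' ∧
      a ^ 2 - ((q' : integralClosure ℤ ℂ) + 1) ^ 2 ∈ 𝔪),
    ∃ (g : CuspForm (CongruenceSubgroup.Gamma0 (N * q')) 2) (𝔪' : Ideal (integralClosure ℤ ℂ)),
      g.IsNormalizedEigenform ∧ 𝔪'.IsMaximal ∧ (p : integralClosure ℤ ℂ) ∈ 𝔪' ∧
      (∀ ℓ : ℕ, ℓ.Prime → W.IsGoodPrimeFor ℓ → ¬ ℓ ∣ N * q' → ℓ ≠ p →
        ∃ a : integralClosure ℤ ℂ, (a : ℂ) = ModularFormClass.qCoeff g ℓ ∧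
          a - ((W.apOfModel ℓ : ℤ) : integralClosure ℤ ℂ) ∈ 𝔪') ∧
      g.IsNewAt q'

/-- Discriminant of the Frey curve: `Δ = (abc)^{2p} / 2^8`. -/
theorem freyCurve_Δ524 (P : FreyPackage) :
    P.freyCurve.Δ = ((P.a : ℚ) * P.b * P.c) ^ (2 * P.p) / 2 ^ 8 := by
  have h : ((P.c : ℚ)) ^ P.p = (P.a : ℚ) ^ P.p + (P.b : ℚ) ^ P.p := by
    exact_mod_cast P.hFLT.symm
  simp only [WeierstrassCurve.Δ, WeierstrassCurve.b₂, WeierstrassCurve.b₄, WeierstrassCurve.b₆,
    WeierstrassCurve.b₈, FreyPackage.freyCurve]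
  rw [mul_pow, mul_pow, pow_mul', pow_mul', pow_mul', h]
  ring

theorem freyCurve_Δ_ne_zero524 (P : FreyPackage) : P.freyCurve.Δ ≠ 0 := by
  rw [freyCurve_Δ524]
  have : ((P.a : ℚ) * P.b * P.c) ≠ 0 := by exact_mod_cast P.habc0
  exact div_ne_zero (pow_ne_zero _ this) (by norm_num)

/-- The Frey curve of a Frey package is an elliptic curve over `ℚ`. -/
theorem freyCurve_isElliptic524 (P : FreyPackage) : P.freyCurve.IsElliptic :=
  ⟨isUnit_iff_ne_zero.mpr (freyCurve_Δ_ne_zero524 P)⟩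

/-- The prime of a Frey package is odd. -/
theorem freyPackage_p_ne_two524 (P : FreyPackage) : P.p ≠ 2 := by
  have := P.hp5
  omega

/-- Unfolded form of the adapter: frozen S41 applied to the Frey curve. -/
theorem modularRepOfLevelNewAt_of_S41 (h : S41Statement) (P : FreyPackage) {N q' : ℕ}
    (hN : 0 < N) (hq' : q'.Prime) (hq'N : ¬ q' ∣ N) (hq'p : q' ≠ P.p)
    (hirr : GaloisRepIsIrreducible (K := AlgebraicClosure ℚ) ℚ P.freyCurve P.p)
    {f : CuspForm (CongruenceSubgroup.Gamma0 N) 2} {W : WeierstrassCurve ℤ}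
    {𝔪 : Ideal (integralClosure ℤ ℂ)} (hw : P.IsCongruentWitness N f W 𝔪)
    (hLR : ∃ a : integralClosure ℤ ℂ, (a : ℂ) = ModularFormClass.qCoeff f q' ∧
      a ^ 2 - ((q' : integralClosure ℤ ℂ) + 1) ^ 2 ∈ 𝔪) :
    P.ModularRepOfLevelNewAt (N * q') q' := by
  obtain ⟨hf, hW, hmax, hpm, hcong⟩ := hw
  have : P.freyCurve.IsElliptic := freyCurve_isElliptic524 P
  obtain ⟨g, 𝔪', hg, hmax', hpm', hcong', hnew⟩ :=
    h P.freyCurve hW P.pp (freyPackage_p_ne_two524 P) hN hq' hq'N hq'p hirr f 𝔪 hf hmax hpm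
      hcong hLR
  exact ⟨g, W, 𝔪', ⟨hg, hW, hmax', hpm', hcong'⟩, hnew⟩

/-- (G4) for one Frey package, level and prime. -/
theorem levelRaising_of_S41_at (h : S41Statement) (P : FreyPackage) (N q' : ℕ) :
    P.LevelRaising N q' := by
  intro f W 𝔪 hN hq' hq'N hq'p hirr hw hLR
  exact modularRepOfLevelNewAt_of_S41 h P hN hq' hq'N hq'p hirr hw hLR

/-- **(G4) LEVEL RAISING ADAPTER**: the frozen statement S41 gives `Spec.LevelRaisingStatement`. -/
theorem levelRaising_of_S41 (h : S41Statement) : Spec.LevelRaisingStatement :=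
  fun P N q' => levelRaising_of_S41_at h P N q'

end Fermat.Agent.Ribet.H524
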